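import Mathlib
import Fermat.Agent.LT.Descent.GeometricDefs
import Fermat.Agent.LT.Galois.Quaternion
import Fermat.Agent.LT.Base.GL2F3

set_option autoImplicit false

/-!
# The sextic field over the quadratic field
-/

noncomputable section

open NumberField IsDedekindDomain
open Matrix (GeneralLinearGroup)

namespace FermatAgent.LT

local notation "Qb" => AlgebraicClosure ℚ
local notation "GQ" => AlgebraicClosure ℚ ≃ₐ[ℚ] AlgebraicClosure ℚ
local notation "G3" => GL (Fin 2) (ZMod 3)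

attribute [local instance] FermatAgent.RT.isGalois_algClosureRat

namespace GL2F3

set_option synthInstance.maxSize 1024 in
theorem tq8_cosets : ∀ g : Tup, tdet g = 1 → ¬ TQ8 g → ∀ h : Tup, tdet h = 1 →
    TQ8 h ∨ TQ8 (tmul g h) ∨ TQ8 (tmul (tmul g g) h) := by
  decide +kernel

set_option synthInstance.maxSize 1024 in
theorem tq8_three : ∀ g : Tup, TQ8 g → tpow g 3 = (1, 0, 0, 1) → g = (1, 0, 0, 1) := by
  decide +kernel

end GL2F3

theorem q8_cosets {g h : G3} (hg : (g : Matrix (Fin 2) (Fin 2) (ZMod 3)).det = 1)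
    (hgQ : g ∉ quaternionSubgroup) (hh : (h : Matrix (Fin 2) (Fin 2) (ZMod 3)).det = 1) :
    h ∈ quaternionSubgroup ∨ g * h ∈ quaternionSubgroup ∨ g * g * h ∈ quaternionSubgroup := by
  simp only [mem_quaternionSubgroup, ← GL2F3.tq8_toTup, Units.val_mul, GL2F3.toTup_mul]
  refine GL2F3.tq8_cosets _ (by rw [GL2F3.tdet_toTup, hg]) ?_ _ (by rw [GL2F3.tdet_toTup, hh])
  rwa [GL2F3.tq8_toTup, ← mem_quaternionSubgroup]

theorem eq_one_of_q8_three {g : G3} (hg : g ∈ quaternionSubgroup) (h3 : g ^ 3 = 1) : g = 1 :=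
  Units.ext (GL2F3.toTup_injective ((GL2F3.tq8_three _ ((GL2F3.tq8_toTup _).mpr hg)
    ((Setup.tpow_eq_one_iff g 3).mpr h3)).trans GL2F3.toTup_one.symm))

namespace Setup

variable (S : Setup)

theorem isClosed_comap (H : Subgroup G3) : IsClosed (H.comap S.ρ : Set GQ) := by
  obtain ⟨E, hE, hEker⟩ := S.finiteLevel
  have hle : E.fixingSubgroup ≤ H.comap S.ρ := fun σ hσ => by
    rw [Subgroup.mem_comap, hEker σ ((IntermediateField.mem_fixingSubgroup_iff E σ).1 hσ)]
    exact H.one_mem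
  exact Subgroup.isClosed_of_isOpen _
    (Subgroup.isOpen_mono hle (IntermediateField.fixingSubgroup_isOpen E))

theorem fixingSubgroup_F : S.F.fixingSubgroup = quaternionSubgroup.comap S.ρ :=
  InfiniteGalois.fixingSubgroup_fixedField ⟨_, S.isClosed_comap quaternionSubgroup⟩

theorem mem_fixing_F_iff {σ : GQ} : σ ∈ S.F.fixingSubgroup ↔ S.ρ σ ∈ quaternionSubgroup := by
  rw [S.fixingSubgroup_F, Subgroup.mem_comap]

theorem mem_fixing_K_iff {σ : GQ} :
    σ ∈ S.K.fixingSubgroup ↔ (S.ρ σ : Matrix (Fin 2) (Fin 2) (ZMod 3)).det = 1 := by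
  refine ⟨S.det_eq_one_of_fix, fun h => ?_⟩
  rw [IntermediateField.mem_fixingSubgroup_iff]
  intro x hx
  exact hx ⟨σ, MonoidHom.mem_ker.mpr (Units.ext h)⟩

theorem isGalois_F : IsGalois ℚ S.F := by
  refine (InfiniteGalois.normal_iff_isGalois S.F).mp ?_
  rw [S.fixingSubgroup_F]
  have : quaternionSubgroup.Normal := ⟨fun h hh g => quaternionSubgroup_conj hh⟩
  exact Subgroup.Normal.comap ‹_› S.ρ

instance instNormalF : Normal ℚ S.F := S.isGalois_F.to_normal

theorem conj_mem_fixing_F (g : GQ) {σ : GQ} (hσ : σ ∈ S.F.fixingSubgroup) :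
    g * σ * g⁻¹ ∈ S.F.fixingSubgroup := by
  rw [mem_fixing_F_iff] at hσ ⊢
  rw [map_mul, map_mul, map_inv]
  exact quaternionSubgroup_conj hσ

/-- The restriction of an automorphism of `ℚ̄` to `F`. -/
def gRes (g : GQ) : S.F ≃+* S.F := (AlgEquiv.restrictNormalHom S.F g).toRingEquiv

theorem coe_gRes (g : GQ) (x : S.F) : ((S.gRes g x : S.F) : Qb) = g (x : Qb) :=
  AlgEquiv.restrictNormal_commutes g S.F x

theorem gRes_mul (g h : GQ) (x : S.F) : S.gRes (g * h) x = S.gRes g (S.gRes h x) :=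
  Subtype.ext (by rw [coe_gRes, coe_gRes, coe_gRes, AlgEquiv.mul_apply])

theorem gRes_eq_refl_iff (g : GQ) :
    S.gRes g = RingEquiv.refl S.F ↔ S.ρ g ∈ quaternionSubgroup := by
  rw [← mem_fixing_F_iff, IntermediateField.mem_fixingSubgroup_iff]
  constructor
  · intro h x hx
    rw [show g x = ((S.gRes g ⟨x, hx⟩ : S.F) : Qb) from (S.coe_gRes g ⟨x, hx⟩).symm, h]
    rfl
  · intro h
    ext x
    exact (S.coe_gRes g x).trans (h _ x.2)

theorem exists_lift (σ : S.F ≃+* S.F) : ∃ g : GQ, S.gRes g = σ := by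
  let e : S.F ≃ₐ[ℚ] S.F := AlgEquiv.ofRingEquiv (f := σ) fun q => by
    rw [eq_ratCast, map_ratCast]
  refine ⟨AlgEquiv.liftNormal e Qb, ?_⟩
  ext x
  rw [coe_gRes]
  exact AlgEquiv.liftNormal_commutes e Qb x

theorem coe_inclKF (x : S.K) : ((S.inclKF x : S.F) : Qb) = (x : Qb) := rfl

theorem gRes_fixes_iff (g : GQ) :
    (∀ x : S.K, S.gRes g (S.inclKF x) = S.inclKF x) ↔ g ∈ S.K.fixingSubgroup := by
  rw [IntermediateField.mem_fixingSubgroup_iff]
  constructor
  · intro h x hx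
    have := congrArg Subtype.val (h ⟨x, hx⟩)
    rwa [coe_gRes] at this
  · intro h x
    exact Subtype.ext ((S.coe_gRes g _).trans (h _ x.2))

theorem exists_lift_over {σ : S.F ≃+* S.F} (hσ : ∀ x : S.K, σ (S.inclKF x) = S.inclKF x) :
    ∃ g ∈ S.K.fixingSubgroup, S.gRes g = σ := by
  obtain ⟨g, rfl⟩ := S.exists_lift σ
  exact ⟨g, (S.gRes_fixes_iff g).mp hσ, rfl⟩

theorem IsGalGen.exists_lift {σ : S.F ≃+* S.F} (hσ : S.IsGalGen σ) :
    ∃ g ∈ S.K.fixingSubgroup, S.ρ g ∉ quaternionSubgroup ∧ S.gRes g = σ := by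
  obtain ⟨g, hg, rfl⟩ := S.exists_lift_over hσ.2
  exact ⟨g, hg, fun h => hσ.1 ((S.gRes_eq_refl_iff g).mpr h), rfl⟩

theorem exists_isGalGen : ∃ σ : S.F ≃+* S.F, S.IsGalGen σ := by
  let u : G3 := ⟨!![1, 1; 0, 1], !![1, -1; 0, 1], by decide, by decide⟩
  obtain ⟨g, hg⟩ := S.surjective u
  refine ⟨S.gRes g, fun h => ?_, (S.gRes_fixes_iff g).mpr ?_⟩
  · rw [gRes_eq_refl_iff, hg, mem_quaternionSubgroup, ← GL2F3.tq8_toTup] at h
    exact absurd h (by decide)
  · rw [mem_fixing_K_iff, hg]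
    decide

theorem IsGalGen.apply_cube {σ : S.F ≃+* S.F} (hσ : S.IsGalGen σ) (x : S.F) :
    σ (σ (σ x)) = x := by
  obtain ⟨g, hg, -, rfl⟩ := IsGalGen.exists_lift S hσ
  have h3 : S.ρ (g ^ 3) ∈ quaternionSubgroup := by
    rw [map_pow]
    exact pow_three_mem_quaternionSubgroup ((S.mem_fixing_K_iff).mp hg)
  have h := RingEquiv.congr_fun ((S.gRes_eq_refl_iff _).mpr h3) x
  rw [pow_succ, pow_two, gRes_mul, gRes_mul] at h
  exact h

theorem IsGalGen.cases {σ τ : S.F ≃+* S.F} (hσ : S.IsGalGen σ)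
    (hτ : ∀ x : S.K, τ (S.inclKF x) = S.inclKF x) :
    τ = RingEquiv.refl S.F ∨ τ = σ ∨ τ = σ.trans σ := by
  have hcube := IsGalGen.apply_cube S hσ
  obtain ⟨g, hg, hgQ, rfl⟩ := IsGalGen.exists_lift S hσ
  obtain ⟨h, hh, rfl⟩ := S.exists_lift_over hτ
  rcases q8_cosets ((S.mem_fixing_K_iff).mp hg) hgQ ((S.mem_fixing_K_iff).mp hh) with h1 | h1 | h1
  · exact Or.inl ((S.gRes_eq_refl_iff h).mpr h1)
  · rw [← map_mul, ← gRes_eq_refl_iff] at h1
    refine Or.inr (Or.inr (RingEquiv.ext fun x => ?_))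
    have h2 := congrArg (fun y => S.gRes g (S.gRes g y)) (RingEquiv.congr_fun h1 x)
    simp only [gRes_mul, hcube] at h2
    exact h2
  · rw [← map_mul, ← map_mul, ← gRes_eq_refl_iff] at h1
    refine Or.inr (Or.inl (RingEquiv.ext fun x => ?_))
    have h2 := congrArg (fun y => S.gRes g y) (RingEquiv.congr_fun h1 x)
    simp only [gRes_mul, hcube] at h2
    exact h2

theorem exists_infinitePlace_over (u : InfinitePlace S.K) :
    ∃ w : InfinitePlace S.F, w.comap S.inclKF.toRingHom = u := by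
  let _ : Algebra S.K S.F := S.inclKF.toRingHom.toAlgebra
  have : IsScalarTower ℚ S.K S.F := IsScalarTower.of_algebraMap_eq' (Subsingleton.elim _ _)
  have : Algebra.IsAlgebraic S.K S.F := Algebra.IsAlgebraic.tower_top (K := ℚ) S.K
  exact InfinitePlace.comap_surjective u

theorem comap_ne_self {τ : S.F ≃+* S.F} (hne : τ ≠ RingEquiv.refl S.F)
    (h3 : ∀ x, τ (τ (τ x)) = x) (w : InfinitePlace S.F) : w.comap τ.toRingHom ≠ w := by
  intro h
  rw [← InfinitePlace.mk_embedding w, InfinitePlace.comap_mk, InfinitePlace.mk_eq_iff] at h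
  refine hne (RingEquiv.ext fun x => ?_)
  rcases h with h | h
  · exact w.embedding.injective (RingHom.congr_fun h x)
  · have hx : ∀ y, starRingEnd ℂ (w.embedding (τ y)) = w.embedding y := fun y =>
      RingHom.congr_fun h y
    have h2 : ∀ y, τ (τ y) = y := fun y => w.embedding.injective (by
      rw [← Complex.conj_conj (w.embedding (τ (τ y))), hx, hx])
    exact (congrArg τ (h2 x)).symm.trans (h3 x)

theorem infinitePlace_orbit_injective {σ : S.F ≃+* S.F} (hσ : S.IsGalGen σ)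
    (w : InfinitePlace S.F) :
    w.comap σ.toRingHom ≠ w ∧ (w.comap σ.toRingHom).comap σ.toRingHom ≠ w := by
  have h3 := IsGalGen.apply_cube S hσ
  refine ⟨S.comap_ne_self hσ.1 h3 w, ?_⟩
  rw [← InfinitePlace.comap_comp]
  refine S.comap_ne_self (τ := σ.trans σ) (fun h => hσ.1 (RingEquiv.ext fun x => ?_))
    (fun x => by simp [h3]) w
  have h2 : σ (σ x) = x := RingEquiv.congr_fun h x
  exact (congrArg σ h2).symm.trans (h3 x)

end Setup

end FermatAgent.LT

end
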