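import Mathlib
import Fermat.Agent.LT.Descent.Facts.Field
import Fermat.Agent.LT.Descent.Classical.Eis

set_option autoImplicit false

/-!
# The places over `3m` and the residue fields of the descent
-/

noncomputable section

open NumberField IsDedekindDomain
open scoped Pointwise

namespace FermatAgent.LT

open FermatAgent.RT (centre mem_centre_iff intCast_mem_centre_iff)
open FermatAgent.Duality.Global (toZB Over IsPlace exists_place exists_over)

local notation "Qb" => AlgebraicClosure ℚ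
local notation "GQ" => AlgebraicClosure ℚ ≃ₐ[ℚ] AlgebraicClosure ℚ
local notation "ZB" => integralClosure ℤ (AlgebraicClosure ℚ)

attribute [local instance] FermatAgent.RT.isGalois_algClosureRat

theorem isPlace_of_natCast {A : ValuationSubring Qb} {l : ℕ} (hl : l.Prime)
    (h : (l : Qb) ∈ A.nonunits) : IsPlace A := ⟨l, hl, h⟩

/-- A place of `ℚ̄` described through its nonunits. -/
theorem over_of_nonunits {L : IntermediateField ℚ Qb} [NumberField L]
    {v : HeightOneSpectrum (𝓞 L)} {A : ValuationSubring Qb}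
    (h : ∀ x : 𝓞 L, x ∈ v.asIdeal ↔ ((x : L) : Qb) ∈ A.nonunits) : Over L A v := by
  obtain ⟨l, hl, hlP⟩ := FermatAgent.CFT.exists_prime_mem v
  have hmem : (l : 𝓞 L) ∈ v.asIdeal := by
    have := Ideal.mem_span_singleton_self (l : ℤ)
    rw [hlP.over, Ideal.under, Ideal.mem_comap, map_natCast] at this
    exact this
  refine ⟨isPlace_of_natCast hl ?_, Ideal.ext fun x => ?_⟩
  · have := (h _).mp hmem
    simpa using this
  · rw [Ideal.mem_comap, mem_centre_iff, h]
    rfl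

theorem nonunits_of_over {L : IntermediateField ℚ Qb} [NumberField L]
    {v : HeightOneSpectrum (𝓞 L)} {A : ValuationSubring Qb} (h : Over L A v) (x : 𝓞 L) :
    x ∈ v.asIdeal ↔ ((x : L) : Qb) ∈ A.nonunits :=
  (h.mem_iff x).trans A.mem_nonunits_iff.symm

theorem absNorm_galPlace {L : Type*} [Field L] [NumberField L] (σ : L ≃+* L)
    (w : HeightOneSpectrum (𝓞 L)) :
    Ideal.absNorm (galPlace σ w).asIdeal = Ideal.absNorm w.asIdeal := by
  rw [← CFT.natCard_quotient_eq_absNorm, ← CFT.natCard_quotient_eq_absNorm]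
  refine Nat.card_congr (Ideal.quotientEquiv _ _ (galInt σ) ?_).toEquiv
  rw [galPlace_asIdeal]
  exact (Ideal.map_comap_of_surjective _ (galInt σ).surjective _).symm

theorem natCast_mem_galPlace {L : Type*} [Field L] [NumberField L] (σ : L ≃+* L)
    (w : HeightOneSpectrum (𝓞 L)) (n : ℕ) :
    (n : 𝓞 L) ∈ (galPlace σ w).asIdeal ↔ (n : 𝓞 L) ∈ w.asIdeal := by
  rw [galPlace_asIdeal, Ideal.mem_comap, map_natCast]

namespace Setup

variable (S : Setup)

theorem levelIdeal_ne_bot (L : IntermediateField ℚ (AlgebraicClosure ℚ)) [NumberField L] :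
    S.levelIdeal L ≠ ⊥ := fun h => by
  have h' : ((3 * S.m : ℕ) : 𝓞 L) ∈ S.levelIdeal L :=
    Ideal.le_radical (Ideal.mem_span_singleton_self _)
  rw [h, Ideal.mem_bot, Nat.cast_eq_zero] at h'
  exact mul_ne_zero three_ne_zero S.m_squarefree.ne_zero h'

theorem levelIdeal_le_iff (L : IntermediateField ℚ (AlgebraicClosure ℚ)) [NumberField L]
    (v : HeightOneSpectrum (𝓞 L)) :
    S.levelIdeal L ≤ v.asIdeal ↔ ((3 * S.m : ℕ) : 𝓞 L) ∈ v.asIdeal := by
  rw [levelIdeal, v.isPrime.radical_le_iff, Ideal.span_singleton_le_iff_mem]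

theorem mem_badPlaces_iff (L : IntermediateField ℚ (AlgebraicClosure ℚ)) [NumberField L]
    (v : HeightOneSpectrum (𝓞 L)) :
    v ∈ S.badPlaces L ↔ ((3 * S.m : ℕ) : 𝓞 L) ∈ v.asIdeal := by
  rw [badPlaces, Set.Finite.mem_toFinset, Set.mem_ofPred_eq, Ideal.dvd_span_singleton]

theorem badPlaces_level (L : IntermediateField ℚ (AlgebraicClosure ℚ)) [NumberField L] :
    ∀ v ∈ S.badPlaces L, S.levelIdeal L ≤ v.asIdeal ∧ ¬ S.levelIdeal L ≤ v.asIdeal ^ 2 := by
  intro v hv
  refine ⟨(S.levelIdeal_le_iff L v).mpr ((S.mem_badPlaces_iff L v).mp hv), fun h => ?_⟩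
  have := (isLevelExp_radical (Nat.cast_ne_zero.mpr
    (mul_ne_zero three_ne_zero S.m_squarefree.ne_zero)) (v := v) (k := 2) h).1
  omega

theorem exists_int_sub_mem {v : HeightOneSpectrum (𝓞 S.K)} (h3 : (3 : 𝓞 S.K) ∈ v.asIdeal)
    (o : 𝓞 S.K) : ∃ n : ℤ, o - n ∈ v.asIdeal := by
  obtain ⟨x, rfl⟩ := S.eK.surjective o
  obtain ⟨a, b, rfl⟩ := Period.exists_eq_eis x
  have hδ : S.eK deltaE ∈ v.asIdeal := by
    refine (v.isPrime.mem_or_mem ?_).elim id id
    rw [← map_mul, deltaE_sq, map_neg, neg_mem_iff, S.eK_natCast]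
    exact_mod_cast h3
  refine ⟨b - 2 * a, ?_⟩
  have e : Period.eis a b - ((b - 2 * a : ℤ) : EisInt) =
      (3 : ℕ) * Period.eis a b - (b : EisInt) * deltaE := by
    refine Subtype.ext ?_
    have h3' : (((3 : ℕ) : EisInt) : ℂ) = 3 := map_natCast EisInt.subtype 3
    simp only [Subring.coe_mul, AddSubgroupClass.coe_sub, SubringClass.coe_intCast, coe_deltaE,
      Period.coe_eis, h3']
    push_cast
    ring
  rw [← map_intCast S.eK, ← map_sub, e, map_sub, map_mul, map_mul, S.eK_natCast]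
  exact sub_mem (Ideal.mul_mem_right _ _ (by exact_mod_cast h3)) (Ideal.mul_mem_left _ _ hδ)

theorem card_residue_three_K : ∀ v ∈ S.badPlaces S.K, (3 : 𝓞 S.K) ∈ v.asIdeal →
    Nat.card (𝓞 S.K ⧸ v.asIdeal) = 3 := by
  intro v _ h3
  have := v.isPrime
  have h30 : ((3 : ℕ) : 𝓞 S.K ⧸ v.asIdeal) = 0 := by
    rw [← map_natCast (Ideal.Quotient.mk v.asIdeal), Ideal.Quotient.eq_zero_iff_mem]
    exact_mod_cast h3
  obtain ⟨p, hp⟩ := CharP.exists (𝓞 S.K ⧸ v.asIdeal)
  obtain rfl : p = 3 := by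
    rcases (Nat.dvd_prime Nat.prime_three).mp ((CharP.cast_eq_zero_iff _ p 3).mp h30) with h | h
    · subst h
      exact absurd rfl (CharP.char_ne_one (𝓞 S.K ⧸ v.asIdeal) 1)
    · exact h
  have hbij : Function.Bijective (ZMod.castHom (dvd_refl 3) (𝓞 S.K ⧸ v.asIdeal)) := by
    refine ⟨ZMod.castHom_injective _, fun y => ?_⟩
    obtain ⟨o, rfl⟩ := Ideal.Quotient.mk_surjective y
    obtain ⟨n, hn⟩ := S.exists_int_sub_mem h3 o
    exact ⟨n, by rw [map_intCast, ← map_intCast (Ideal.Quotient.mk v.asIdeal),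
      Ideal.Quotient.eq.mpr hn]⟩
  rw [← Nat.card_congr (Equiv.ofBijective _ hbij), Nat.card_zmod]

theorem card_residue_three_F : ∀ v ∈ S.badPlaces S.F, (3 : 𝓞 S.F) ∈ v.asIdeal →
    Nat.card (𝓞 S.F ⧸ v.asIdeal) = 3 := by
  intro w hw h3
  rw [mem_badPlaces_iff] at hw
  rw [CFT.natCard_quotient_eq_absNorm, S.absNorm_eq_comap w hw]
  show Ideal.absNorm (S.underK w).asIdeal = 3
  rw [← CFT.natCard_quotient_eq_absNorm]
  refine S.card_residue_three_K _ ((S.mem_badPlaces_iff _ _).mpr ?_) ?_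
  · show _ ∈ w.asIdeal.comap S.inclInt
    rwa [Ideal.mem_comap, map_natCast]
  · show _ ∈ w.asIdeal.comap S.inclInt
    rwa [Ideal.mem_comap, map_ofNat]

theorem exists_three_mem (L : IntermediateField ℚ (AlgebraicClosure ℚ)) [NumberField L] :
    ∃ v : HeightOneSpectrum (𝓞 L), (3 : 𝓞 L) ∈ v.asIdeal := by
  have hne : Ideal.span {((3 : ℕ) : 𝓞 L)} ≠ ⊤ := fun h => by
    have h1 := Ideal.absNorm_span_natCast (S := 𝓞 L) 3
    rw [h, Ideal.absNorm_top] at h1
    exact absurd h1.symm (by simp [Module.finrank_pos.ne'])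
  obtain ⟨P, hP, hle⟩ := Ideal.exists_le_maximal _ hne
  have h3 : ((3 : ℕ) : 𝓞 L) ∈ P := hle (Ideal.mem_span_singleton_self _)
  refine ⟨⟨P, hP.isPrime, fun h => ?_⟩, by exact_mod_cast h3⟩
  rw [h, Ideal.mem_bot, Nat.cast_eq_zero] at h3
  exact three_ne_zero h3

theorem levelIdeal_map (σ : S.F ≃+* S.F) :
    (S.levelIdeal S.F).map (galInt σ) = S.levelIdeal S.F := by
  ext x
  rw [← Ideal.comap_symm, Ideal.mem_comap]
  simp only [levelIdeal, Ideal.mem_radical_iff, Ideal.mem_span_singleton]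
  refine exists_congr fun n => ?_
  conv_lhs => rw [← map_pow, ← map_natCast (galInt σ).symm, map_dvd_iff]

theorem inclInt_apply (b : 𝓞 S.K) :
    ((S.inclInt b : 𝓞 S.F) : S.F) = S.inclKF (b : S.K) := rfl

theorem galInt_inclInt {σ : S.F ≃+* S.F} (hσ : S.IsGalGen σ) (b : 𝓞 S.K) :
    galInt σ (S.inclInt b) = S.inclInt b :=
  RingOfIntegers.coe_injective (hσ.2 _)

theorem underK_galPlace {σ : S.F ≃+* S.F} (hσ : S.IsGalGen σ) (w : HeightOneSpectrum (𝓞 S.F)) :
    S.underK (galPlace σ w) = S.underK w := by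
  refine HeightOneSpectrum.ext (Ideal.ext fun b => ?_)
  show S.inclInt b ∈ (galPlace σ w).asIdeal ↔ S.inclInt b ∈ w.asIdeal
  rw [galPlace_asIdeal, Ideal.mem_comap, S.galInt_inclInt hσ]

theorem toZB_inclInt (b : 𝓞 S.K) : toZB S.F (S.inclInt b) = toZB S.K b := Subtype.ext rfl

theorem over_underK {A : ValuationSubring Qb} {w : HeightOneSpectrum (𝓞 S.F)}
    (hA : Over S.F A w) : Over S.K A (S.underK w) := by
  refine ⟨hA.1, Ideal.ext fun b => ?_⟩
  show b ∈ _ ↔ S.inclInt b ∈ w.asIdeal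
  rw [← hA.2, Ideal.mem_comap, Ideal.mem_comap, S.toZB_inclInt]

theorem exists_place_over (v : HeightOneSpectrum (𝓞 S.K)) :
    ∃ w : HeightOneSpectrum (𝓞 S.F), S.underK w = v := by
  obtain ⟨A, hA⟩ := exists_place v
  obtain ⟨w, hw⟩ := exists_over (K := S.F) hA.1
  exact ⟨w, (S.over_underK hw).eq hA⟩

theorem absNorm_underK_le (w : HeightOneSpectrum (𝓞 S.F)) :
    Ideal.absNorm (S.underK w).asIdeal ≤ Ideal.absNorm w.asIdeal := by
  have := CFT.finite_quotient_prime w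
  rw [← CFT.natCard_quotient_eq_absNorm, ← CFT.natCard_quotient_eq_absNorm]
  exact Nat.card_le_card_of_injective _
    (Ideal.quotientMap_injective' (I := w.asIdeal) (f := S.inclInt) (H := le_rfl) le_rfl)

theorem exists_absNorm_eq_pow (w : HeightOneSpectrum (𝓞 S.F)) :
    ∃ d : ℕ, Ideal.absNorm w.asIdeal = Ideal.absNorm (S.underK w).asIdeal ^ d := by
  have := CFT.finite_quotient_prime w
  have := CFT.finite_quotient_prime (S.underK w)
  have := (S.underK w).isMaximal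
  let _ := Ideal.Quotient.field (S.underK w).asIdeal
  let _ : Algebra (𝓞 S.K ⧸ (S.underK w).asIdeal) (𝓞 S.F ⧸ w.asIdeal) :=
    (Ideal.quotientMap w.asIdeal S.inclInt (le_refl (S.underK w).asIdeal)).toAlgebra
  refine ⟨Module.finrank (𝓞 S.K ⧸ (S.underK w).asIdeal) (𝓞 S.F ⧸ w.asIdeal), ?_⟩
  rw [← CFT.natCard_quotient_eq_absNorm, ← CFT.natCard_quotient_eq_absNorm]
  exact Module.natCard_eq_pow_finrank

/-- Congruences to Frobenius powers iterate. -/
theorem pow_frob_congr {A : ValuationSubring Qb} {σ : GQ} {q : ℕ}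
    (h : ∀ b : ZB, σ • b - b ^ q ∈ centre A) (k : ℕ) :
    ∀ b : ZB, (σ ^ k) • b - b ^ q ^ k ∈ centre A := by
  induction k with
  | zero => intro b; simp
  | succ k ih =>
    intro b
    rw [pow_succ σ, mul_smul, pow_succ' q, pow_mul]
    have h1 := ih (σ • b)
    have h2 : (σ • b) ^ q ^ k - (b ^ q) ^ q ^ k ∈ centre A :=
      Ideal.mem_of_dvd _ (sub_dvd_pow_sub_pow _ _ _) (h b)
    have h3 := add_mem h1 h2
    rwa [sub_add_sub_cancel] at h3

theorem absNorm_underK (w : HeightOneSpectrum (𝓞 S.F)) :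
    Ideal.absNorm w.asIdeal = Ideal.absNorm (S.underK w).asIdeal ∨
      Ideal.absNorm w.asIdeal = Ideal.absNorm (S.underK w).asIdeal ^ 3 := by
  obtain ⟨A, hA⟩ := exists_place w
  obtain ⟨σ, hσ, -, hfrob, -⟩ := exists_frobenius_over S.K (S.over_underK hA)
  have hq := CFT.two_le_absNorm (S.underK w)
  set q := Ideal.absNorm (S.underK w).asIdeal with hqdef
  have h3 : σ ^ 3 ∈ S.F.fixingSubgroup := by
    rw [mem_fixing_F_iff, map_pow]
    exact pow_three_mem_quaternionSubgroup ((S.mem_fixing_K_iff).mp hσ)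
  have hx3 : ∀ x : 𝓞 S.F, x ^ q ^ 3 - x ∈ w.asIdeal := by
    intro x
    rw [← hA.2, Ideal.mem_comap, map_sub, map_pow]
    have := pow_frob_congr hfrob 3 (toZB S.F x)
    rw [FermatAgent.Duality.Global.toZB_smul_of_mem h3] at this
    rwa [← neg_mem_iff, neg_sub]
  have hle : Ideal.absNorm w.asIdeal ≤ q ^ 3 :=
    CFT.absNorm_le_of_forall_pow_sub_mem w (one_lt_pow₀ hq (by norm_num)) hx3
  obtain ⟨d, hd⟩ := S.exists_absNorm_eq_pow w
  rw [← hqdef] at hd
  have hd3 : d ≤ 3 := (pow_le_pow_iff_right₀ hq).mp (hd ▸ hle)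
  have hd1 : 1 ≤ d := by
    rcases d with _ | d
    · have := CFT.two_le_absNorm w
      rw [hd, pow_zero] at this
      omega
    · omega
  obtain rfl | rfl | rfl : d = 1 ∨ d = 2 ∨ d = 3 := by omega
  · exact Or.inl (hd.trans (pow_one q))
  · exfalso
    have hx1 : ∀ x : 𝓞 S.F, x ^ q - x ∈ w.asIdeal := by
      intro x
      have h2 : x ^ q ^ 2 - x ∈ w.asIdeal := hd ▸ CFT.pow_absNorm_sub_self_mem w x
      have h4 : (x ^ q ^ 2) ^ q - x ^ q ∈ w.asIdeal :=
        Ideal.mem_of_dvd _ (sub_dvd_pow_sub_pow _ _ _) h2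
      rw [← pow_mul, ← pow_succ] at h4
      have := sub_mem (hx3 x) h4
      rwa [sub_sub_sub_cancel_left] at this
    have h1 := CFT.absNorm_le_of_forall_pow_sub_mem w hq hx1
    rw [hd] at h1
    nlinarith
  · exact Or.inr hd

end Setup

end FermatAgent.LT

end
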