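import Mathlib
import Fermat.Agent.LT.Descent.Facts.Places
import Fermat.Agent.LT.Period.Frobenius
import Fermat.Agent.LT.ClassField.Unram

set_option autoImplicit false

/-!
# Frobenius elements at the places of `F` and the inert places
-/

noncomputable section

open NumberField IsDedekindDomain Filter Topology Asymptotics
open scoped Pointwise

namespace FermatAgent.LT

open FermatAgent.RT (centre mem_centre_iff mem_of_isIntegral_int)
open FermatAgent.GalRep (primeSum)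
open FermatAgent.Duality.Global (toZB Over IsPlace exists_place exists_over exists_smul_eq_of_over)

local notation "Qb" => AlgebraicClosure ℚ
local notation "GQ" => AlgebraicClosure ℚ ≃ₐ[ℚ] AlgebraicClosure ℚ
local notation "G3" => GL (Fin 2) (ZMod 3)
local notation "ZB" => integralClosure ℤ (AlgebraicClosure ℚ)

attribute [local instance] FermatAgent.RT.isGalois_algClosureRat

theorem q8Trace_conj' (x g : G3) : q8Trace (x * g * x⁻¹) = q8Trace g := by
  have h1 : x * g * x⁻¹ = 1 ↔ g = 1 := conj_eq_one_iff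
  have h2 : x * g * x⁻¹ = -1 ↔ g = -1 := by
    rw [mul_inv_eq_iff_eq_mul, neg_one_mul]
    exact ⟨fun h => mul_left_cancel (h.trans (mul_neg_one x).symm), fun h => by rw [h, mul_neg_one]⟩
  simp only [q8Trace, h1, h2]

theorem abs_q8Trace_le_two (g : G3) : |q8Trace g| ≤ 2 := by
  unfold q8Trace
  split_ifs <;> norm_num

theorem mem_nonunits_natCast_of_mem {L : IntermediateField ℚ Qb} [NumberField L]
    {v : HeightOneSpectrum (𝓞 L)} {A : ValuationSubring Qb} (hA : Over L A v) {p : ℕ}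
    (hp : (p : 𝓞 L) ∈ v.asIdeal) : A.LiesOverPrime p := by
  have := (nonunits_of_over hA _).mp hp
  simp only [map_natCast] at this
  exact this

namespace Setup

variable (S : Setup)

theorem rho_inertia_eq_one {w : HeightOneSpectrum (𝓞 S.F)}
    (hw : ((3 * S.m : ℕ) : 𝓞 S.F) ∉ w.asIdeal) {A : ValuationSubring Qb} (hA : Over S.F A w)
    {i : GQ} (hi : i ∈ A.inertiaSubgroupIn ℚ) : S.ρ i = 1 := by
  obtain ⟨l, hl, hlA⟩ := hA.1
  refine S.unramified l hl (fun hdvd => hw ?_) A hlA i hi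
  obtain ⟨c, hc⟩ := hdvd
  rw [hc, Nat.cast_mul]
  exact Ideal.mul_mem_right _ _ (hA.natCast_mem hlA)

theorem rho_eq_of_frob {w : HeightOneSpectrum (𝓞 S.F)}
    (hw : ((3 * S.m : ℕ) : 𝓞 S.F) ∉ w.asIdeal) {A : ValuationSubring Qb} (hA : Over S.F A w)
    {N : ℕ} {σ τ : GQ} (hσ : A.IsFrobeniusAt σ N) (hτ : A.IsFrobeniusAt τ N) :
    S.ρ σ = S.ρ τ := by
  have := S.rho_inertia_eq_one hw hA (FermatAgent.TW.inv_mul_mem_inertia hσ hτ)
  rwa [map_mul, map_inv, inv_mul_eq_one] at this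

theorem q8Trace_eq_of_frob {w : HeightOneSpectrum (𝓞 S.F)}
    (hw : ((3 * S.m : ℕ) : 𝓞 S.F) ∉ w.asIdeal) {A B : ValuationSubring Qb} (hA : Over S.F A w)
    (hB : Over S.F B w) {σ τ : GQ} (hσ : A.IsFrobeniusAt σ (Ideal.absNorm w.asIdeal))
    (hτ : B.IsFrobeniusAt τ (Ideal.absNorm w.asIdeal)) :
    q8Trace (S.ρ τ) = q8Trace (S.ρ σ) := by
  obtain ⟨g, hg, rfl⟩ := exists_smul_eq_of_over hA hB
  rw [← S.rho_eq_of_frob hw hB (FermatAgent.GalRep.isFrobeniusAt_conj g hσ) hτ, map_mul, map_mul,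
    map_inv, q8Trace_conj']

theorem over_inv_smul {A : ValuationSubring Qb} {w : HeightOneSpectrum (𝓞 S.F)}
    (hA : Over S.F A w) (g : GQ) : Over S.F (g⁻¹ • A) (galPlace (S.gRes g) w) := by
  refine ⟨hA.1.smul _, Ideal.ext fun x => ?_⟩
  rw [galPlace_asIdeal, Ideal.mem_comap, Ideal.mem_comap, ← hA.2, Ideal.mem_comap,
    FermatAgent.TW.mem_centre_smul, inv_inv,
    show g • toZB S.F x = toZB S.F (galInt (S.gRes g) x) from
      Subtype.ext (S.coe_gRes g (x : S.F)).symm]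

/-- The trace at a place of `F` does not depend on the Frobenius element. -/
theorem exists_frobTrace :
    ∃ t : HeightOneSpectrum (𝓞 S.F) → ℤ,
      (∀ w, ((3 * S.m : ℕ) : 𝓞 S.F) ∉ w.asIdeal → ∀ σ, IsFrobOver w σ →
        q8Trace (S.ρ σ) = t w) ∧
      (∀ w, |t w| ≤ 2) ∧
      (∀ σ : S.F ≃+* S.F, ∀ w, ((3 * S.m : ℕ) : 𝓞 S.F) ∉ w.asIdeal → t (galPlace σ w) = t w) := by
  choose φ hφ using exists_isFrobOver S.F
  have key : ∀ w, ((3 * S.m : ℕ) : 𝓞 S.F) ∉ w.asIdeal → ∀ σ, IsFrobOver w σ →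
      q8Trace (S.ρ σ) = q8Trace (S.ρ (φ w)) := by
    intro w hw σ hσ
    obtain ⟨-, A, hA, hfA⟩ := hσ
    obtain ⟨-, B, hB, hfB⟩ := hφ w
    exact S.q8Trace_eq_of_frob hw (over_of_nonunits hB) (over_of_nonunits hA) hfB hfA
  refine ⟨fun w => q8Trace (S.ρ (φ w)), key, fun w => abs_q8Trace_le_two _, fun σ w hw => ?_⟩
  obtain ⟨hfix, A, hA, hfA⟩ := hφ w
  obtain ⟨g, rfl⟩ := S.exists_lift σ
  have hover := S.over_inv_smul (over_of_nonunits hA) g
  have hfr : IsFrobOver (galPlace (S.gRes g) w) (g⁻¹ * φ w * g⁻¹⁻¹) :=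
    ⟨S.conj_mem_fixing_F g⁻¹ hfix, g⁻¹ • A, nonunits_of_over hover, by
      rw [absNorm_galPlace]; exact FermatAgent.GalRep.isFrobeniusAt_conj _ hfA⟩
  have := key _ (fun h => hw ((natCast_mem_galPlace _ w _).mp h)) _ hfr
  rw [map_mul, map_mul, map_inv, map_inv, map_inv, q8Trace_conj'] at this
  exact this.symm

theorem exists_over_frob {v : HeightOneSpectrum (𝓞 S.K)}
    {σ : AlgebraicClosure ℚ ≃ₐ[ℚ] AlgebraicClosure ℚ}
    (hσ : IsFrobOver v σ) (hQ : S.ρ σ ∈ quaternionSubgroup) :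
    ∃ w : HeightOneSpectrum (𝓞 S.F), S.underK w = v ∧
      Ideal.absNorm w.asIdeal = Ideal.absNorm v.asIdeal ∧ IsFrobOver w σ := by
  obtain ⟨-, A, hA, hfA⟩ := hσ
  have hAv := over_of_nonunits hA
  obtain ⟨w, hAw⟩ := exists_over (K := S.F) hAv.1
  have hwv : S.underK w = v := (S.over_underK hAw).eq hAv
  have hfix : σ ∈ S.F.fixingSubgroup := (S.mem_fixing_F_iff).mpr hQ
  have hnorm : Ideal.absNorm w.asIdeal = Ideal.absNorm v.asIdeal := by
    refine le_antisymm ?_ (hwv ▸ S.absNorm_underK_le w)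
    refine CFT.absNorm_le_of_forall_pow_sub_mem w (CFT.two_le_absNorm v) fun x => ?_
    rw [hAw.mem_iff]
    have h := ((FermatAgent.TW.isFrobeniusAt_iff).mp hfA).2 _
      (mem_of_isIntegral_int A (toZB S.F x).2)
    rw [FermatAgent.Duality.Global.coe_toZB,
      (IntermediateField.mem_fixingSubgroup_iff _ _).mp hfix _ (x : S.F).2] at h
    rw [← neg_sub, Valuation.map_neg] at h
    simpa using h
  exact ⟨w, hwv, hnorm, hfix, A, nonunits_of_over hAw, hnorm.symm ▸ hfA⟩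

theorem infinite_order_three :
    {p : Nat.Primes | ¬ (p : ℕ) ∣ 3 * S.m ∧ Period.frobImage S.ρ p ≠ 1 ∧
      Period.frobImage S.ρ p ^ 3 = 1}.Infinite := by
  classical
  let u : G3 := ⟨!![1, 1; 0, 1], !![1, -1; 0, 1], by decide, by decide⟩
  have hu3 : u ^ 3 = 1 := Units.ext (by rw [Units.val_pow_eq_pow_val]; decide)
  have hu1 : u ≠ 1 := fun h => absurd (congrArg Units.val h) (by decide)
  have hD : Nat.card (Subgroup.zpowers u) = 3 := by
    rw [Nat.card_zpowers]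
    exact orderOf_eq_prime hu3 hu1
  intro hfin
  have hbad : {p : Nat.Primes | (p : ℕ) ∣ 3 * S.m}.Finite :=
    ((Set.finite_le_nat (3 * S.m)).preimage Subtype.val_injective.injOn).subset fun p hp =>
      Nat.le_of_dvd (Nat.pos_of_ne_zero (mul_ne_zero three_ne_zero S.m_squarefree.ne_zero)) hp
  have hne : {p : Nat.Primes | Period.conjCount S.ρ (Subgroup.zpowers u) p ≠
      Period.conjCount S.ρ ⊥ p}.Finite := by
    refine (hfin.union hbad).subset fun p hp => ?_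
    by_cases hpd : (p : ℕ) ∣ 3 * S.m
    · exact Or.inr hpd
    refine Or.inl ⟨hpd, ?_⟩
    by_contra hcon
    refine hp (congrArg (Nat.cast : ℕ → ℝ) (Nat.card_congr (Equiv.subtypeEquivRight fun x => ?_)))
    refine ⟨fun hx => ?_, fun hx => Subgroup.mem_bot.mp hx ▸ one_mem _⟩
    rw [Subgroup.mem_bot]
    obtain ⟨k, hk⟩ := Subgroup.mem_zpowers_iff.mp hx
    have h3 : (x⁻¹ * Period.frobImage S.ρ p * x) ^ 3 = 1 := by
      rw [← hk, ← zpow_natCast, ← zpow_mul, mul_comm, zpow_mul, zpow_natCast, hu3,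
        _root_.one_zpow]
    have h3' : Period.frobImage S.ρ p ^ 3 = 1 := by
      have e := conj_pow (i := 3) (a := x⁻¹) (b := Period.frobImage S.ρ p)
      rw [inv_inv] at e
      rw [e, mul_assoc, inv_mul_eq_one, right_eq_mul] at h3
      exact h3
    have h1 : Period.frobImage S.ρ p = 1 := by
      by_contra h
      exact hcon ⟨h, h3'⟩
    rw [h1, mul_one, inv_mul_cancel]
  have hb : ∀ (D : Subgroup G3) p, |Period.conjCount S.ρ D p| ≤ (Nat.card G3 : ℝ) :=
    fun D p => Period.abs_conjCount_le S.ρ D p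
  have h := ((Period.conjCount_isBigO S.finiteLevel S.surjective (Subgroup.zpowers u)).sub
    (Period.conjCount_isBigO S.finiteLevel S.surjective ⊥)).sub
    (FermatAgent.GalRep.primeSum_sub_isBigO (hb _) (hb _) hne)
  refine FermatAgent.GalRep.not_log_sub_one_isBigO ((h.const_mul_left (1 / 2 : ℝ)).congr_left
    fun s => ?_)
  rw [hD, Subgroup.card_bot]
  push_cast
  ring

theorem exists_inert_of_order_three {σ : S.F ≃+* S.F} (hσ : S.IsGalGen σ) {p : Nat.Primes}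
    (hp : ¬ (p : ℕ) ∣ 3 * S.m) (h1 : Period.frobImage S.ρ p ≠ 1)
    (h3 : Period.frobImage S.ρ p ^ 3 = 1) :
    ∃ w : HeightOneSpectrum (𝓞 S.F), ((p : ℕ) : 𝓞 S.F) ∈ w.asIdeal ∧
      ((3 * S.m : ℕ) : 𝓞 S.F) ∉ w.asIdeal ∧
      Ideal.absNorm w.asIdeal ≠ Ideal.absNorm (S.underK w).asIdeal ∧ galPlace σ w = w ∧
      ∀ τ, IsFrobOver w τ → q8Trace (S.ρ τ) ≠ 0 := by
  set A := Period.frobPlace p with hAdef
  set φ := Period.frobElt p with hφdef
  have hAp : A.LiesOverPrime (p : ℕ) := Period.frobPlace_liesOver p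
  have hfr : A.IsFrobeniusAt φ (p : ℕ) := Period.frobElt_isFrobeniusAt p
  have hρ3 : S.ρ φ ^ 3 = 1 := h3
  have hρ1 : S.ρ φ ≠ 1 := h1
  have hdet : (S.ρ φ : Matrix (Fin 2) (Fin 2) (ZMod 3)).det = 1 := by
    rw [← GL2F3.tdet_toTup]
    exact GL2F3.tdet_of_three _ ((tpow_eq_one_iff _ 3).mpr hρ3)
  have hφQ : S.ρ φ ∉ quaternionSubgroup := fun h => hρ1 (eq_one_of_q8_three h hρ3)
  have hφK : φ ∈ S.K.fixingSubgroup := (S.mem_fixing_K_iff).mpr hdet
  obtain ⟨w, hAw⟩ := exists_over (K := S.F) (⟨p, p.2, hAp⟩ : IsPlace A)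
  have hAv := S.over_underK hAw
  have hpw : ((p : ℕ) : 𝓞 S.F) ∈ w.asIdeal := hAw.natCast_mem hAp
  have hnot : ((3 * S.m : ℕ) : 𝓞 S.F) ∉ w.asIdeal := by
    intro hmem
    rw [← hAw.2, Ideal.mem_comap, map_natCast, ← Int.cast_natCast,
      FermatAgent.RT.intCast_mem_centre_iff p.2 hAp, Int.natCast_dvd_natCast] at hmem
    exact hp hmem
  have hv : Ideal.absNorm (S.underK w).asIdeal = (p : ℕ) := by
    have hle : Ideal.absNorm (S.underK w).asIdeal ≤ (p : ℕ) := by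
      refine CFT.absNorm_le_of_forall_pow_sub_mem _ p.2.one_lt fun x => ?_
      rw [hAv.mem_iff]
      have h := ((FermatAgent.TW.isFrobeniusAt_iff).mp hfr).2 _
        (mem_of_isIntegral_int A (toZB S.K x).2)
      rw [FermatAgent.Duality.Global.coe_toZB,
      (IntermediateField.mem_fixingSubgroup_iff _ _).mp hφK _ (x : S.K).2] at h
      rw [← neg_sub, Valuation.map_neg] at h
      simpa using h
    have hdvd := Ideal.absNorm_dvd_absNorm_of_le
      ((Ideal.span_singleton_le_iff_mem _).mpr (hAv.natCast_mem hAp))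
    rw [Ideal.absNorm_span_natCast] at hdvd
    obtain ⟨f, -, hf⟩ := (Nat.dvd_prime_pow p.2).mp hdvd
    rcases f with _ | f
    · have := CFT.two_le_absNorm (S.underK w)
      rw [hf, pow_zero] at this
      omega
    · refine le_antisymm hle ?_
      rw [hf]
      exact Nat.le_self_pow (Nat.succ_ne_zero f) _
  have hne : Ideal.absNorm w.asIdeal ≠ Ideal.absNorm (S.underK w).asIdeal := by
    intro he
    obtain ⟨τ, hτ, -, -, hτA⟩ := exists_frobenius_over S.F hAw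
    rw [he, hv] at hτA
    exact hφQ (S.rho_eq_of_frob hnot hAw hfr hτA ▸ (S.mem_fixing_F_iff).mp hτ)
  have hN : Ideal.absNorm w.asIdeal = (p : ℕ) ^ 3 :=
    hv ▸ (S.absNorm_underK w).resolve_left hne
  refine ⟨w, hpw, hnot, hne, ?_, ?_⟩
  · obtain ⟨g, hg, -, rfl⟩ := IsGalGen.exists_lift S hσ
    have hA : φ • A = A :=
      MulAction.mem_stabilizer_iff.mp ((FermatAgent.TW.isFrobeniusAt_iff).mp hfr).1
    refine (S.over_inv_smul hAw g).eq ?_
    obtain ⟨k, hk⟩ : ∃ k : ℕ, φ ^ k * g ∈ S.F.fixingSubgroup := by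
      rcases q8_cosets hdet hφQ ((S.mem_fixing_K_iff).mp hg) with h | h | h
      · exact ⟨0, by rwa [mem_fixing_F_iff, pow_zero, one_mul]⟩
      · exact ⟨1, by rwa [mem_fixing_F_iff, pow_one, map_mul]⟩
      · exact ⟨2, by rwa [mem_fixing_F_iff, pow_two, map_mul, map_mul]⟩
    have hAk : (φ ^ k) • A = A :=
      MulAction.mem_stabilizer_iff.mp (Subgroup.pow_mem _ (MulAction.mem_stabilizer_iff.mpr hA) k)
    have e : g⁻¹ • A = (φ ^ k * g)⁻¹ • A := by
      rw [mul_inv_rev, mul_smul, inv_smul_eq_iff.mpr hAk.symm]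
    rw [e]
    exact hAw.smul (inv_mem hk)
  · intro τ hτ
    obtain ⟨hτF, B, hB, hfB⟩ := hτ
    have h3fr : A.IsFrobeniusAt (φ ^ 3) (Ideal.absNorm w.asIdeal) :=
      hN ▸ ClassField.isFrobeniusAt_pow hfr 3
    rw [S.q8Trace_eq_of_frob hnot hAw (over_of_nonunits hB) h3fr hfB, map_pow, hρ3, q8Trace,
      if_pos rfl]
    norm_num

/-- Infinitely many good places are inert over `K`; their traces are `± 2`. -/
theorem infinite_inert {σ : S.F ≃+* S.F} (hσ : S.IsGalGen σ) :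
    {w : HeightOneSpectrum (𝓞 S.F) | ((3 * S.m : ℕ) : 𝓞 S.F) ∉ w.asIdeal ∧
      Ideal.absNorm w.asIdeal ≠ Ideal.absNorm (S.underK w).asIdeal ∧ galPlace σ w = w ∧
      ∀ τ, IsFrobOver w τ → q8Trace (S.ρ τ) ≠ 0}.Infinite := by
  intro hfin
  refine S.infinite_order_three ((hfin.biUnion fun w _ =>
    Set.Subsingleton.finite (s := {p : Nat.Primes | ((p : ℕ) : 𝓞 S.F) ∈ w.asIdeal})
      fun p hp q hq => ?_).subset fun p hp => ?_)
  · by_contra hne
    obtain ⟨a, b, hab⟩ := ((Int.isCoprime_iff_nat_coprime.2 (by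
      simpa using (Nat.coprime_primes p.2 q.2).2 fun h => hne (Subtype.ext h)) :
        IsCoprime ((p : ℕ) : ℤ) ((q : ℕ) : ℤ))).map (Int.castRingHom (𝓞 S.F))
    simp at hab
    exact w.isPrime.ne_top ((Ideal.eq_top_iff_one _).mpr
      (hab ▸ add_mem (Ideal.mul_mem_left _ a hp) (Ideal.mul_mem_left _ b hq)))
  · obtain ⟨w, hpw, hw⟩ := S.exists_inert_of_order_three hσ hp.1 hp.2.1 hp.2.2
    exact Set.mem_biUnion (x := w) hw hpw

end Setup

end FermatAgent.LT

end
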