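import Mathlib
import Fermat.Agent.LT.Descent.Facts.Places

set_option autoImplicit false

/-!
# The residual characters on `F`
-/

noncomputable section

open NumberField IsDedekindDomain

namespace FermatAgent.LT

theorem psi_congr {L : Type*} [Field L] [NumberField L]
    (Ψ : ∀ v : HeightOneSpectrum (𝓞 L), AddChar (𝓞 L ⧸ v.asIdeal) ℂ)
    {v v' : HeightOneSpectrum (𝓞 L)} (h : v = v') (b : 𝓞 L) :
    Ψ v (Ideal.Quotient.mk _ b) = Ψ v' (Ideal.Quotient.mk _ b) := by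
  subst h
  rfl

namespace Setup

variable (S : Setup)

theorem natCast_mem_underK (w : HeightOneSpectrum (𝓞 S.F)) (n : ℕ) :
    (n : 𝓞 S.K) ∈ (S.underK w).asIdeal ↔ (n : 𝓞 S.F) ∈ w.asIdeal := by
  show _ ∈ w.asIdeal.comap S.inclInt ↔ _
  rw [Ideal.mem_comap, map_natCast]

theorem psiTriple_nontriv {Ψ : S.PsiData} (hΨ : Ψ.Nontriv) : (S.psiTriple Ψ).Nontriv := by
  intro v hv
  rw [psiTriple]
  split_ifs with h3
  · exact hΨ v hv
  obtain ⟨c, hc⟩ := AddChar.ne_one_iff.mp (hΨ v hv)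
  have := v.isMaximal
  let _ := Ideal.Quotient.field v.asIdeal
  have h30 : ((3 : ℕ) : 𝓞 S.K ⧸ v.asIdeal) ≠ 0 := by
    rw [← map_natCast (Ideal.Quotient.mk v.asIdeal), ne_eq, Ideal.Quotient.eq_zero_iff_mem]
    exact_mod_cast h3
  refine AddChar.ne_one_iff.mpr ⟨((3 : ℕ) : 𝓞 S.K ⧸ v.asIdeal)⁻¹ * c, ?_⟩
  rwa [AddChar.pow_apply, ← AddChar.map_nsmul_eq_pow, nsmul_eq_mul, ← mul_assoc,
    mul_inv_cancel₀ h30, one_mul]

theorem exists_nontriv : ∃ Ψ : S.PsiData, Ψ.Nontriv := by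
  have h : ∀ v : HeightOneSpectrum (𝓞 S.K), ∃ ψ : AddChar (𝓞 S.K ⧸ v.asIdeal) ℂ, ψ ≠ 1 := by
    intro v
    have := CFT.finite_quotient_prime v
    have := v.isPrime
    obtain ⟨ψ, hψ⟩ :=
      AddChar.exists_apply_ne_zero.mpr (one_ne_zero (α := 𝓞 S.K ⧸ v.asIdeal))
    exact ⟨ψ, AddChar.ne_one_iff.mpr ⟨1, hψ⟩⟩
  choose Ψ hΨ using h
  exact ⟨Ψ, fun v _ => hΨ v⟩

theorem psiF_mk (Ψ : S.PsiData) {w : HeightOneSpectrum (𝓞 S.F)}
    (hw : ((3 * S.m : ℕ) : 𝓞 S.F) ∈ w.asIdeal) (b : 𝓞 S.K) :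
    S.psiF Ψ w (Ideal.Quotient.mk w.asIdeal (S.inclInt b)) =
      S.psiTriple Ψ (S.underK w) (Ideal.Quotient.mk (S.underK w).asIdeal b) := by
  rw [psiF, dif_pos hw]
  refine congrArg (S.psiTriple Ψ (S.underK w)) ?_
  exact (RingEquiv.symm_apply_eq _).mpr
    (Ideal.quotientMap_mk (I := w.asIdeal) (f := S.inclInt) (H := le_rfl) (x := b)).symm

theorem psiF_of_sub_mem (Ψ : S.PsiData) {w : HeightOneSpectrum (𝓞 S.F)}
    (hw : ((3 * S.m : ℕ) : 𝓞 S.F) ∈ w.asIdeal) {o : 𝓞 S.F} {b : 𝓞 S.K}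
    (hb : o - S.inclInt b ∈ w.asIdeal) :
    S.psiF Ψ w (Ideal.Quotient.mk w.asIdeal o) =
      S.psiTriple Ψ (S.underK w) (Ideal.Quotient.mk (S.underK w).asIdeal b) := by
  rw [Ideal.Quotient.eq.mpr hb, psiF_mk S Ψ hw]

theorem psiF_ne_one {Ψ : S.PsiData} (hΨ : Ψ.Nontriv) {w : HeightOneSpectrum (𝓞 S.F)}
    (hw : w ∈ S.badPlaces S.F) : S.psiF Ψ w ≠ 1 := by
  rw [mem_badPlaces_iff] at hw
  obtain ⟨c, hc⟩ := AddChar.ne_one_iff.mp
    (S.psiTriple_nontriv hΨ (S.underK w) ((S.natCast_mem_underK w _).mpr hw))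
  obtain ⟨b, rfl⟩ := Ideal.Quotient.mk_surjective c
  exact AddChar.ne_one_iff.mpr ⟨_, (S.psiF_mk Ψ hw b).symm ▸ hc⟩

theorem psiF_gal (Ψ : S.PsiData) {σ : S.F ≃+* S.F} (hσ : S.IsGalGen σ) :
    ∀ w ∈ S.badPlaces S.F, galPlace σ w ∈ S.badPlaces S.F ∧
      ∀ b, S.psiF Ψ (galPlace σ w) (Ideal.Quotient.mk _ b) =
        S.psiF Ψ w (Ideal.Quotient.mk _ (galInt σ b)) := by
  intro w hw
  rw [mem_badPlaces_iff] at hw
  have hw' := (natCast_mem_galPlace σ w _).mpr hw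
  refine ⟨(S.mem_badPlaces_iff _ _).mpr hw', fun o => ?_⟩
  obtain ⟨b, hb⟩ : ∃ b : 𝓞 S.K, o - S.inclInt b ∈ (galPlace σ w).asIdeal :=
    S.surjective_residue _ hw' o
  have hb' : galInt σ o - S.inclInt b ∈ w.asIdeal := by
    rwa [galPlace_asIdeal, Ideal.mem_comap, map_sub, S.galInt_inclInt hσ] at hb
  rw [psiF_of_sub_mem S Ψ hw' hb, psiF_of_sub_mem S Ψ hw hb']
  exact psi_congr _ (S.underK_galPlace hσ w) b

theorem transl_mem_congr {w : HeightOneSpectrum (𝓞 S.F)} {o : 𝓞 S.F}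
    (ho : o ∈ w.asIdeal) : transl w o ∈ congrSubgroup (S.levelIdeal S.F) := by
  classical
  have hc3 : ((3 * S.m : ℕ) : 𝓞 S.F) ≠ 0 :=
    Nat.cast_ne_zero.mpr (mul_ne_zero three_ne_zero S.m_squarefree.ne_zero)
  let e : HeightOneSpectrum (𝓞 S.F) → ℕ :=
    fun u => if ((3 * S.m : ℕ) : 𝓞 S.F) ∈ u.asIdeal then 1 else 0
  have he : IsLevelExp (S.levelIdeal S.F) e := fun u k hk => by
    obtain ⟨h1, h2⟩ := isLevelExp_radical hc3 hk
    simp only [e]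
    split_ifs with hu
    · exact h1
    · exact (h2 hu).le
  rw [transl, atPlace_upperTri, ideleAt_one]
  refine (isNearOne_upperUni (updAt_mem_smallAdeles ?_)).mem_congrSubgroup he
  rw [valued_loc, HeightOneSpectrum.valuation_of_algebraMap, w.intValuation_le_pow_iff_mem]
  simp only [e]
  split_ifs <;> simp [ho]

theorem isPsiAt_psiF {Ψ : S.PsiData} {G : XInf S.F → GAf S.F → ℂ}
    (hG : IsDihedralLike S (S.psiTriple Ψ) G) {w : HeightOneSpectrum (𝓞 S.F)}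
    (hw : w ∈ S.badPlaces S.F) : IsPsiAt w (S.psiF Ψ w) G := by
  rw [mem_badPlaces_iff] at hw
  intro x g o
  obtain ⟨b, hb⟩ : ∃ b : 𝓞 S.K, o - S.inclInt b ∈ w.asIdeal := S.surjective_residue w hw o
  have hsplit : transl w o = transl w (S.inclInt b) * transl w (o - S.inclInt b) := by
    rw [← transl_add, add_sub_cancel]
  rw [hsplit, ← mul_assoc, hG.cusp.level _ (S.transl_mem_congr hb),
    hG.psi w hw (S.underK w) rfl x g b, psiF_of_sub_mem S Ψ hw hb]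

theorem psi_of_isPsiAt {Ψ : S.PsiData} {G : XInf S.F → GAf S.F → ℂ}
    (hG : ∀ w ∈ S.badPlaces S.F, IsPsiAt w (S.psiF Ψ w) G) :
    ∀ w : HeightOneSpectrum (𝓞 S.F), ((3 * S.m : ℕ) : 𝓞 S.F) ∈ w.asIdeal →
      ∀ v : HeightOneSpectrum (𝓞 S.K), v.asIdeal = w.asIdeal.comap S.inclInt →
        ∀ x g (b : 𝓞 S.K), G x (g * transl w (S.inclInt b)) =
          S.psiTriple Ψ v (Ideal.Quotient.mk v.asIdeal b) * G x g := by
  intro w hw v hv x g b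
  obtain rfl : v = S.underK w := HeightOneSpectrum.ext hv
  rw [hG w ((S.mem_badPlaces_iff _ _).mpr hw) x g, psiF_mk S Ψ hw]

end Setup

end FermatAgent.LT

end
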